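import Mathlib

/-!
# S41 (PAIR, sub-leaf P3): the kappa-calculus, part 1

Generic group theory behind the cup-product pairing `⟨φ, ψ⟩ = -∑_c κ(γ_c)`, where
`κ : G → A` satisfies `κ (g h) = κ g + κ h + φ g * ψ h` (`dκ = φ ∪ ψ`).

Everything is stated for plain functions `G → A`; `IsAddFn f` says that `f` is additive
(a homomorphism `G → (A, +)`), `IsAddFn.of_addMonoidHom` converts from the `Additive G →+ A`
convention.

* `IsKappa f f' κ` : `κ (g * h) = κ g + κ h + f g * f' h`;
* `IsKappa.one`, `IsKappa.inv`, `IsKappa.conj_eq`, `IsKappa.conj` (conjugation invariance on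
  elements killed by `f` and `f'`), `IsKappa.pow`, `IsKappa.zpow`;
* `IsKappa.seqProd` : the value of `κ` on an ordered product;
* `IsKappa.sub_isAddFn` (two `κ`'s differ by a homomorphism), `IsKappa.add_isAddFn`;
* `IsKappa.comp` (pull-back), linearity in both arguments, `IsKappa.swap` (skew-symmetry);
* `IsNormKappa` : `κ` vanishes on elements of finite order.
-/

set_option autoImplicit false

namespace Fermat.Agent.S41.H99

variable {G : Type*} [Group G] {A : Type*} [CommRing A]

/-- Additive functions on a group: homomorphisms `G → (A, +)`. -/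
def IsAddFn (f : G → A) : Prop := ∀ g h, f (g * h) = f g + f h

/-- Ordered products `h 0 * h 1 * ⋯ * h (n - 1)`. -/
def seqProd (h : ℕ → G) : ℕ → G
  | 0 => 1
  | n + 1 => seqProd h n * h n

@[simp] theorem seqProd_zero (h : ℕ → G) : seqProd h 0 = 1 := rfl

theorem seqProd_succ (h : ℕ → G) (n : ℕ) : seqProd h (n + 1) = seqProd h n * h n := rfl

theorem seqProd_const (c : G) (n : ℕ) : seqProd (fun _ => c) n = c ^ n := by
  induction n with
  | zero => rw [seqProd_zero, pow_zero]
  | succ n ih => rw [seqProd_succ, ih, pow_succ]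

namespace IsAddFn

variable {f f' : G → A}

theorem one (hf : IsAddFn f) : f 1 = 0 := by
  have h := hf 1 1
  rw [mul_one] at h
  exact left_eq_add.mp h

theorem inv (hf : IsAddFn f) (g : G) : f g⁻¹ = - f g := by
  have h := hf g g⁻¹
  rw [mul_inv_cancel, hf.one] at h
  exact eq_neg_of_add_eq_zero_right h.symm

theorem conj (hf : IsAddFn f) (g c : G) : f (g * c * g⁻¹) = f c := by
  rw [hf, hf, hf.inv]
  ring

theorem pow (hf : IsAddFn f) (g : G) (n : ℕ) : f (g ^ n) = n * f g := by
  induction n with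
  | zero => simp [hf.one]
  | succ n ih =>
    rw [pow_succ, hf, ih]
    push_cast
    ring

theorem zpow (hf : IsAddFn f) (g : G) (n : ℤ) : f (g ^ n) = n * f g := by
  cases n with
  | ofNat n =>
    rw [Int.ofNat_eq_natCast, zpow_natCast, hf.pow]
    push_cast
    ring
  | negSucc n =>
    rw [zpow_negSucc, hf.inv, hf.pow]
    push_cast
    ring

theorem seqProd (hf : IsAddFn f) (h : ℕ → G) (n : ℕ) :
    f (seqProd h n) = ∑ b ∈ Finset.range n, f (h b) := by
  induction n with
  | zero => simp [hf.one]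
  | succ n ih => rw [seqProd_succ, hf, ih, Finset.sum_range_succ]

theorem comp {G' : Type*} [Group G'] (hf : IsAddFn f) (θ : G' →* G) :
    IsAddFn (fun g => f (θ g)) := fun g h => by
  show f (θ (g * h)) = f (θ g) + f (θ h)
  rw [map_mul, hf]

theorem zero : IsAddFn (fun _ : G => (0 : A)) := fun _ _ => by simp

theorem add (hf : IsAddFn f) (hf' : IsAddFn f') : IsAddFn (fun g => f g + f' g) := fun g h => by
  show f (g * h) + f' (g * h) = f g + f' g + (f h + f' h)
  rw [hf, hf']
  ring

theorem neg (hf : IsAddFn f) : IsAddFn (fun g => - f g) := fun g h => by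
  show - f (g * h) = - f g + - f h
  rw [hf]
  ring

theorem sub (hf : IsAddFn f) (hf' : IsAddFn f') : IsAddFn (fun g => f g - f' g) := fun g h => by
  show f (g * h) - f' (g * h) = f g - f' g + (f h - f' h)
  rw [hf, hf']
  ring

theorem const_mul (hf : IsAddFn f) (a : A) : IsAddFn (fun g => a * f g) := fun g h => by
  show a * f (g * h) = a * f g + a * f h
  rw [hf]
  ring

theorem of_addMonoidHom (φ : Additive G →+ A) : IsAddFn (fun g => φ (Additive.ofMul g)) :=
  fun g h => by
    show φ (Additive.ofMul (g * h)) = φ (Additive.ofMul g) + φ (Additive.ofMul h)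
    rw [ofMul_mul, map_add]

/-- The additive homomorphism attached to an additive function. -/
def toAddMonoidHom (hf : IsAddFn f) : Additive G →+ A where
  toFun g := f (Additive.toMul g)
  map_zero' := hf.one
  map_add' _ _ := hf _ _

@[simp] theorem toAddMonoidHom_apply (hf : IsAddFn f) (g : G) :
    hf.toAddMonoidHom (Additive.ofMul g) = f g := rfl

end IsAddFn

/-- `κ` is a primitive of the cup product of `f` and `f'`:
`κ (g * h) = κ g + κ h + f g * f' h`. -/
def IsKappa (f f' κ : G → A) : Prop := ∀ g h, κ (g * h) = κ g + κ h + f g * f' h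

namespace IsKappa

variable {f f' κ : G → A}

theorem one (hκ : IsKappa f f' κ) (hf : IsAddFn f) : κ 1 = 0 := by
  have h := hκ 1 1
  rw [mul_one, hf.one, zero_mul, add_zero] at h
  exact left_eq_add.mp h

/-- `κ 1 = 0`, from additivity of the second function. -/
theorem one' (hκ : IsKappa f f' κ) (hf' : IsAddFn f') : κ 1 = 0 := by
  have h := hκ 1 1
  rw [mul_one, hf'.one, mul_zero, add_zero] at h
  exact left_eq_add.mp h

theorem inv (hκ : IsKappa f f' κ) (hf : IsAddFn f) (hf' : IsAddFn f') (g : G) :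
    κ g⁻¹ = - κ g + f g * f' g := by
  have h := hκ g g⁻¹
  rw [mul_inv_cancel, hκ.one hf, hf'.inv] at h
  linear_combination -h

/-- The general conjugation formula. -/
theorem conj_eq (hκ : IsKappa f f' κ) (hf : IsAddFn f) (hf' : IsAddFn f') (g c : G) :
    κ (g * c * g⁻¹) = κ c + f g * f' c - f c * f' g := by
  rw [hκ, hκ, hκ.inv hf hf', hf, hf'.inv]
  ring

/-- (K1) `κ` is conjugation invariant on the elements killed by `f` and `f'`. -/
theorem conj (hκ : IsKappa f f' κ) (hf : IsAddFn f) (hf' : IsAddFn f') (g : G) {c : G}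
    (hc : f c = 0) (hc' : f' c = 0) : κ (g * c * g⁻¹) = κ c := by
  rw [hκ.conj_eq hf hf', hc, hc']
  ring

/-- The value of `κ` on a power (general formula). -/
theorem pow_eq (hκ : IsKappa f f' κ) (hf : IsAddFn f) (c : G) (n : ℕ) :
    κ (c ^ n) = n * κ c + (n.choose 2 : A) * (f c * f' c) := by
  induction n with
  | zero => simp [hκ.one hf]
  | succ n ih =>
    rw [pow_succ, hκ, ih, hf.pow, Nat.choose_succ_succ' n 1, Nat.choose_one_right]
    push_cast
    ring

/-- (K2) `κ (c ^ n) = n κ c` if `f c * f' c = 0`. -/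
theorem pow (hκ : IsKappa f f' κ) (hf : IsAddFn f) {c : G} (hc : f c * f' c = 0) (n : ℕ) :
    κ (c ^ n) = n * κ c := by
  rw [hκ.pow_eq hf, hc, mul_zero, add_zero]

theorem zpow (hκ : IsKappa f f' κ) (hf : IsAddFn f) (hf' : IsAddFn f') {c : G}
    (hc : f c * f' c = 0) (n : ℤ) : κ (c ^ n) = n * κ c := by
  cases n with
  | ofNat n =>
    rw [Int.ofNat_eq_natCast, zpow_natCast, hκ.pow hf hc]
    push_cast
    ring
  | negSucc n =>
    rw [zpow_negSucc, hκ.inv hf hf', hκ.pow hf hc, hf.pow, hf'.pow]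
    push_cast
    linear_combination ((n : A) + 1) ^ 2 * hc

/-- The value of `κ` on an ordered product. -/
theorem seqProd (hκ : IsKappa f f' κ) (hf : IsAddFn f) (h : ℕ → G) (n : ℕ) :
    κ (seqProd h n) =
      ∑ b ∈ Finset.range n, (κ (h b) + f (Fermat.Agent.S41.H99.seqProd h b) * f' (h b)) := by
  induction n with
  | zero => simp [hκ.one hf]
  | succ n ih =>
    rw [seqProd_succ, hκ, ih, Finset.sum_range_succ]
    ring

/-- (K3) Two primitives of the same cup product differ by a homomorphism. -/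
theorem sub_isAddFn {κ' : G → A} (hκ : IsKappa f f' κ) (hκ' : IsKappa f f' κ') :
    IsAddFn (fun g => κ g - κ' g) := fun g h => by
  show κ (g * h) - κ' (g * h) = κ g - κ' g + (κ h - κ' h)
  rw [hκ, hκ']
  ring

theorem add_isAddFn {χ : G → A} (hκ : IsKappa f f' κ) (hχ : IsAddFn χ) :
    IsKappa f f' (fun g => κ g + χ g) := fun g h => by
  show κ (g * h) + χ (g * h) = κ g + χ g + (κ h + χ h) + f g * f' h
  rw [hκ, hχ]
  ring

/-- (K4) Pull-back along a homomorphism. -/
theorem comp {G' : Type*} [Group G'] (hκ : IsKappa f f' κ) (θ : G' →* G) :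
    IsKappa (fun g => f (θ g)) (fun g => f' (θ g)) (fun g => κ (θ g)) := fun g h => by
  show κ (θ (g * h)) = κ (θ g) + κ (θ h) + f (θ g) * f' (θ h)
  rw [map_mul, hκ]

theorem add_right {f'' κ'' : G → A} (hκ : IsKappa f f' κ) (hκ'' : IsKappa f f'' κ'') :
    IsKappa f (fun g => f' g + f'' g) (fun g => κ g + κ'' g) := fun g h => by
  show κ (g * h) + κ'' (g * h) = κ g + κ'' g + (κ h + κ'' h) + f g * (f' h + f'' h)
  rw [hκ, hκ'']
  ring

theorem add_left {f'' κ'' : G → A} (hκ : IsKappa f f' κ) (hκ'' : IsKappa f'' f' κ'') :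
    IsKappa (fun g => f g + f'' g) f' (fun g => κ g + κ'' g) := fun g h => by
  show κ (g * h) + κ'' (g * h) = κ g + κ'' g + (κ h + κ'' h) + (f g + f'' g) * f' h
  rw [hκ, hκ'']
  ring

theorem const_mul_right (hκ : IsKappa f f' κ) (a : A) :
    IsKappa f (fun g => a * f' g) (fun g => a * κ g) := fun g h => by
  show a * κ (g * h) = a * κ g + a * κ h + f g * (a * f' h)
  rw [hκ]
  ring

theorem const_mul_left (hκ : IsKappa f f' κ) (a : A) :
    IsKappa (fun g => a * f g) f' (fun g => a * κ g) := fun g h => by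
  show a * κ (g * h) = a * κ g + a * κ h + a * f g * f' h
  rw [hκ]
  ring

theorem neg_right (hκ : IsKappa f f' κ) : IsKappa f (fun g => - f' g) (fun g => - κ g) :=
  fun g h => by
    show - κ (g * h) = - κ g + - κ h + f g * - f' h
    rw [hκ]
    ring

theorem neg_left (hκ : IsKappa f f' κ) : IsKappa (fun g => - f g) f' (fun g => - κ g) :=
  fun g h => by
    show - κ (g * h) = - κ g + - κ h + - f g * f' h
    rw [hκ]
    ring

theorem zero_right (f : G → A) : IsKappa f (fun _ => (0 : A)) (fun _ => (0 : A)) :=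
  fun _ _ => by simp

theorem zero_left (f' : G → A) : IsKappa (fun _ => (0 : A)) f' (fun _ => (0 : A)) :=
  fun _ _ => by simp

/-- Skew-symmetry: `f * f' - κ` is a primitive of `f' ∪ f`. -/
theorem swap (hκ : IsKappa f f' κ) (hf : IsAddFn f) (hf' : IsAddFn f') :
    IsKappa f' f (fun g => f g * f' g - κ g) := fun g h => by
  show f (g * h) * f' (g * h) - κ (g * h) = f g * f' g - κ g + (f h * f' h - κ h) + f' g * f h
  rw [hκ, hf, hf']
  ring

/-- The canonical primitive of `f ∪ f` when `2` is invertible: `f² / 2`. -/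
theorem self (hf : IsAddFn f) (a : A) (ha : 2 * a = 1) :
    IsKappa f f (fun g => a * f g ^ 2) := fun g h => by
  show a * f (g * h) ^ 2 = a * f g ^ 2 + a * f h ^ 2 + f g * f h
  rw [hf]
  linear_combination (f g * f h) * ha

end IsKappa

/-- A primitive of `f ∪ f'` which vanishes on the elements of finite order. -/
def IsNormKappa (f f' κ : G → A) : Prop :=
  IsKappa f f' κ ∧ ∀ g, IsOfFinOrder g → κ g = 0

namespace IsNormKappa

variable {f f' κ : G → A}

theorem isKappa (hκ : IsNormKappa f f' κ) : IsKappa f f' κ := hκ.1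

theorem comp {G' : Type*} [Group G'] (hκ : IsNormKappa f f' κ) (θ : G' →* G) :
    IsNormKappa (fun g => f (θ g)) (fun g => f' (θ g)) (fun g => κ (θ g)) :=
  ⟨hκ.1.comp θ, fun _ hg => hκ.2 _ (θ.isOfFinOrder hg)⟩

theorem swap (hκ : IsNormKappa f f' κ) (hf : IsAddFn f) (hf' : IsAddFn f')
    (hfin : ∀ g, IsOfFinOrder g → f g = 0) :
    IsNormKappa f' f (fun g => f g * f' g - κ g) :=
  ⟨hκ.1.swap hf hf', fun g hg => by
    show f g * f' g - κ g = 0
    rw [hfin g hg, hκ.2 g hg]
    ring⟩

theorem add_right {f'' κ'' : G → A} (hκ : IsNormKappa f f' κ) (hκ'' : IsNormKappa f f'' κ'') :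
    IsNormKappa f (fun g => f' g + f'' g) (fun g => κ g + κ'' g) :=
  ⟨hκ.1.add_right hκ''.1, fun g hg => by
    show κ g + κ'' g = 0
    rw [hκ.2 g hg, hκ''.2 g hg, add_zero]⟩

theorem add_left {f'' κ'' : G → A} (hκ : IsNormKappa f f' κ) (hκ'' : IsNormKappa f'' f' κ'') :
    IsNormKappa (fun g => f g + f'' g) f' (fun g => κ g + κ'' g) :=
  ⟨hκ.1.add_left hκ''.1, fun g hg => by
    show κ g + κ'' g = 0
    rw [hκ.2 g hg, hκ''.2 g hg, add_zero]⟩

/-- Two normalised primitives differ by a homomorphism vanishing on elements of finite order. -/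
theorem sub_isAddFn {κ' : G → A} (hκ : IsNormKappa f f' κ) (hκ' : IsNormKappa f f' κ') :
    IsAddFn (fun g => κ g - κ' g) ∧ ∀ g, IsOfFinOrder g → κ g - κ' g = 0 :=
  ⟨hκ.1.sub_isAddFn hκ'.1, fun g hg => by rw [hκ.2 g hg, hκ'.2 g hg, sub_zero]⟩

end IsNormKappa

end Fermat.Agent.S41.H99
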