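import Mathlib
import Fermat.Agent.S41.H99.Kappa

/-!
# S41 (PAIR, sub-leaf P3): the kappa-calculus, part 2 — transfer

A *cocycle system* from `G` to `H` on an index type `ι` is a pair `perm : G → ι → ι`,
`coc : G → ι → H` with `perm (g g') = perm g' ∘ perm g` and
`coc (g g') i = coc g i * coc g' (perm g i)` (a homomorphism `G → H ≀ Sym ι`).  Examples: coset
representatives `t i` of a subgroup of finite index (`coc g i = t i * g * (t (perm g i))⁻¹`) and
the `perm`/`coc` of a correspondence system of integer matrices.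

* `trFn coc u` : the transfer `g ↦ ∑ i, u (coc g i)` of an additive function `u` on `H`;
* `trKappaL`, `isKappa_trKappaL` : if `κ'` is a primitive of `f₁ ∪ u` on `H` and
  `f₁ (coc g j) = f g + τ j - τ (perm g j)`, then
  `K g = ∑ j, (κ' (coc g j) - τ j * u (coc g j))` is a primitive of `f ∪ tr u` on `G`;
* `trKappaR`, `isKappa_trKappaR` : the mirror statement for `tr u ∪ f`;
* `IsOrbDecomp`, `exists_isOrbDecomp` : orbit decompositions of a permutation of a finite type;
* `trKappaL_apply`, `trKappaR_apply` : for `f c = 0`, `K c` is the sum over the orbits of `c` of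
  `κ' (coc (c ^ e) r) ∓ τ r * u (coc (c ^ e) r)` (`r` a point of the orbit, `e` its length);
* `isNormKappa_trKappaL`, `isNormKappa_trKappaR` : normalisation on elements of finite order is
  preserved.
-/

set_option autoImplicit false

universe uι

namespace Fermat.Agent.S41.H99

variable {G H : Type*} [Group G] [Group H] {ι : Type uι} {A : Type*} [CommRing A]

/-- A cocycle system from `G` to `H`: a homomorphism `G → H ≀ Sym ι`, written out. -/
structure IsCocSys (perm : G → ι → ι) (coc : G → ι → H) : Prop where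
  perm_one : ∀ i, perm 1 i = i
  perm_mul : ∀ g g' i, perm (g * g') i = perm g' (perm g i)
  coc_mul : ∀ g g' i, coc (g * g') i = coc g i * coc g' (perm g i)

namespace IsCocSys

variable {perm : G → ι → ι} {coc : G → ι → H} (hs : IsCocSys perm coc)

include hs

theorem coc_one (i : ι) : coc 1 i = 1 := by
  have h := hs.coc_mul 1 1 i
  rw [mul_one, hs.perm_one] at h
  exact left_eq_mul.mp h

theorem perm_inv_perm (g : G) (i : ι) : perm g⁻¹ (perm g i) = i := by
  rw [← hs.perm_mul, mul_inv_cancel, hs.perm_one]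

theorem perm_perm_inv (g : G) (i : ι) : perm g (perm g⁻¹ i) = i := by
  rw [← hs.perm_mul, inv_mul_cancel, hs.perm_one]

/-- The permutation attached to `g`, as an equivalence. -/
def permEquiv (g : G) : ι ≃ ι where
  toFun := perm g
  invFun := perm g⁻¹
  left_inv := hs.perm_inv_perm g
  right_inv := hs.perm_perm_inv g

@[simp] theorem permEquiv_apply (g : G) (i : ι) : hs.permEquiv g i = perm g i := rfl

theorem coe_permEquiv (g : G) : ⇑(hs.permEquiv g) = perm g := rfl

theorem perm_pow (g : G) (n : ℕ) (i : ι) : perm (g ^ n) i = (perm g)^[n] i := by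
  induction n generalizing i with
  | zero => simp [hs.perm_one]
  | succ n ih => rw [pow_succ, hs.perm_mul, ih, Function.iterate_succ_apply']

theorem perm_pow_of_fixed {g : G} {i : ι} (hi : perm g i = i) (n : ℕ) : perm (g ^ n) i = i := by
  rw [hs.perm_pow, Function.iterate_fixed hi]

theorem perm_inv_of_fixed {g : G} {i : ι} (hi : perm g i = i) : perm g⁻¹ i = i := by
  conv_lhs => rw [← hi]
  exact hs.perm_inv_perm g i

theorem perm_zpow_of_fixed {g : G} {i : ι} (hi : perm g i = i) (n : ℤ) : perm (g ^ n) i = i := by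
  cases n with
  | ofNat n => rw [Int.ofNat_eq_natCast, zpow_natCast]; exact hs.perm_pow_of_fixed hi n
  | negSucc n =>
    rw [zpow_negSucc]
    exact hs.perm_inv_of_fixed (hs.perm_pow_of_fixed hi _)

theorem coc_pow (g : G) (n : ℕ) (i : ι) :
    coc (g ^ n) i = seqProd (fun a => coc g ((perm g)^[a] i)) n := by
  induction n with
  | zero => simp [hs.coc_one]
  | succ n ih => rw [pow_succ, hs.coc_mul, ih, seqProd_succ, hs.perm_pow]

theorem coc_pow_of_fixed {g : G} {i : ι} (hi : perm g i = i) (n : ℕ) :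
    coc (g ^ n) i = coc g i ^ n := by
  induction n with
  | zero => simp [hs.coc_one]
  | succ n ih => rw [pow_succ, hs.coc_mul, ih, hs.perm_pow_of_fixed hi, pow_succ]

theorem coc_inv (g : G) (i : ι) : coc g⁻¹ i = (coc g (perm g⁻¹ i))⁻¹ := by
  have h := hs.coc_mul g⁻¹ g i
  rw [inv_mul_cancel, hs.coc_one] at h
  exact eq_inv_of_mul_eq_one_left h.symm

theorem coc_inv_of_fixed {g : G} {i : ι} (hi : perm g i = i) : coc g⁻¹ i = (coc g i)⁻¹ := by
  rw [hs.coc_inv, hs.perm_inv_of_fixed hi]

theorem coc_zpow_of_fixed {g : G} {i : ι} (hi : perm g i = i) (n : ℤ) :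
    coc (g ^ n) i = coc g i ^ n := by
  cases n with
  | ofNat n =>
    rw [Int.ofNat_eq_natCast, zpow_natCast, zpow_natCast]
    exact hs.coc_pow_of_fixed hi n
  | negSucc n =>
    rw [zpow_negSucc, zpow_negSucc, hs.coc_inv_of_fixed (hs.perm_pow_of_fixed hi _),
      hs.coc_pow_of_fixed hi]

/-- Change of the base point along an orbit: conjugation. -/
theorem coc_of_commute {x y : G} (hxy : Commute x y) {i : ι} (hi : perm x i = i) :
    coc x (perm y i) = (coc y i)⁻¹ * coc x i * coc y i := by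
  have h1 := hs.coc_mul x y i
  have h2 := hs.coc_mul y x i
  rw [hi] at h1
  rw [← hxy.eq, h1] at h2
  rw [mul_assoc, h2, inv_mul_cancel_left]

/-- The cocycle at a fixed point of `g` has finite order if `g` has. -/
theorem isOfFinOrder_coc {g : G} {i : ι} (hi : perm g i = i) (hg : IsOfFinOrder g) :
    IsOfFinOrder (coc g i) := by
  obtain ⟨n, hn, hgn⟩ := isOfFinOrder_iff_pow_eq_one.mp hg
  exact isOfFinOrder_iff_pow_eq_one.mpr ⟨n, hn, by rw [← hs.coc_pow_of_fixed hi, hgn, hs.coc_one]⟩

end IsCocSys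

/-! ### Orbit decompositions -/

/-- `r d` are representatives of the orbits of `σ`, and `e d` the orbit lengths. -/
structure IsOrbDecomp {D : Type*} (σ : ι → ι) (r : D → ι) (e : D → ℕ) : Prop where
  pos : ∀ d, 0 < e d
  closed : ∀ d, σ^[e d] (r d) = r d
  bij : Function.Bijective (fun x : (d : D) × Fin (e d) => σ^[(x.2 : ℕ)] (r x.1))

theorem IsOrbDecomp.sum_eq {D : Type*} [Fintype ι] [Fintype D] {M : Type*} [AddCommMonoid M]
    {σ : ι → ι} {r : D → ι} {e : D → ℕ} (h : IsOrbDecomp σ r e) (F : ι → M) :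
    ∑ j, F j = ∑ d, ∑ a ∈ Finset.range (e d), F (σ^[a] (r d)) := by
  rw [← (Equiv.ofBijective _ h.bij).sum_comp F, Fintype.sum_sigma]
  refine Finset.sum_congr rfl fun d _ => ?_
  rw [← Fin.sum_univ_eq_sum_range (fun a => F (σ^[a] (r d)))]
  rfl

/-- Every permutation of a finite type has an orbit decomposition. -/
theorem exists_isOrbDecomp [Finite ι] (σ : Equiv.Perm ι) :
    ∃ (D : Type uι) (_ : Fintype D) (r : D → ι) (e : D → ℕ), IsOrbDecomp (⇑σ) r e := by
  classical
  have : Fintype ι := Fintype.ofFinite ι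
  let D := Quotient (Equiv.Perm.SameCycle.setoid σ)
  let r : D → ι := Quotient.out
  let e : D → ℕ := fun d => Function.minimalPeriod σ (r d)
  have hper : ∀ x : ι, x ∈ Function.periodicPts σ := by
    intro x
    refine Function.mk_mem_periodicPts (orderOf_pos σ) ?_
    show (⇑σ)^[orderOf σ] x = x
    rw [Equiv.Perm.iterate_eq_pow, pow_orderOf_eq_one]
    rfl
  refine ⟨D, inferInstance, r, e, ⟨?_, ?_, ?_, ?_⟩⟩
  · intro d
    exact Function.minimalPeriod_pos_of_mem_periodicPts (hper _)
  · intro d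
    exact Function.iterate_minimalPeriod
  · rintro ⟨d, a⟩ ⟨d', a'⟩ hxy
    have hxy' : (⇑σ)^[(a : ℕ)] (r d) = (⇑σ)^[(a' : ℕ)] (r d') := hxy
    have hsc : Equiv.Perm.SameCycle σ (r d) (r d') := by
      refine ⟨-(a' : ℤ) + (a : ℤ), ?_⟩
      rw [zpow_add, Equiv.Perm.mul_apply, zpow_neg, zpow_natCast, zpow_natCast,
        Equiv.Perm.inv_eq_iff_eq, ← Equiv.Perm.iterate_eq_pow, ← Equiv.Perm.iterate_eq_pow]
      exact hxy'
    have hd : d = d' := by
      have h1 : (Quotient.mk (Equiv.Perm.SameCycle.setoid σ) (r d) : D) =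
          Quotient.mk (Equiv.Perm.SameCycle.setoid σ) (r d') := Quotient.sound hsc
      rwa [Quotient.out_eq, Quotient.out_eq] at h1
    subst hd
    have ha : (a : ℕ) = (a' : ℕ) :=
      Function.iterate_injOn_Iio_minimalPeriod (Set.mem_Iio.mpr a.2) (Set.mem_Iio.mpr a'.2) hxy'
    rw [Fin.ext ha]
  · intro j
    let d : D := Quotient.mk (Equiv.Perm.SameCycle.setoid σ) j
    have hsc : Equiv.Perm.SameCycle σ (r d) j := Quotient.exact (Quotient.out_eq d)
    obtain ⟨n, hn⟩ := hsc.exists_nat_pow_eq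
    refine ⟨⟨d, ⟨n % e d, Nat.mod_lt _ (Function.minimalPeriod_pos_of_mem_periodicPts (hper _))⟩⟩,
      ?_⟩
    show (⇑σ)^[n % Function.minimalPeriod σ (r d)] (r d) = j
    rw [Function.iterate_mod_minimalPeriod_eq, Equiv.Perm.iterate_eq_pow]
    exact hn

/-! ### Transfer of additive functions and of primitives -/

section transfer

variable {perm : G → ι → ι} {coc : G → ι → H}

/-- The transfer of a function on `H`: `g ↦ ∑ i, u (coc g i)`. -/
def trFn [Fintype ι] (coc : G → ι → H) (u : H → A) : G → A := fun g => ∑ i, u (coc g i)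

omit [Group G] [Group H] in
theorem trFn_apply [Fintype ι] (u : H → A) (g : G) : trFn coc u g = ∑ i, u (coc g i) := rfl

theorem IsCocSys.trFn_isAddFn [Fintype ι] (hs : IsCocSys perm coc) {u : H → A} (hu : IsAddFn u) :
    IsAddFn (trFn coc u) := by
  intro g g'
  show ∑ i, u (coc (g * g') i) = ∑ i, u (coc g i) + ∑ i, u (coc g' i)
  rw [← Equiv.sum_comp (hs.permEquiv g) (fun i => u (coc g' i)), ← Finset.sum_add_distrib]
  refine Finset.sum_congr rfl fun i _ => ?_
  rw [hs.coc_mul, hu]
  rfl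

/-- The transferred primitive (left version). -/
def trKappaL [Fintype ι] (coc : G → ι → H) (τ : ι → A) (u κ' : H → A) : G → A :=
  fun g => ∑ j, (κ' (coc g j) - τ j * u (coc g j))

/-- The transferred primitive (right version). -/
def trKappaR [Fintype ι] (perm : G → ι → ι) (coc : G → ι → H) (τ : ι → A) (u κ' : H → A) :
    G → A :=
  fun g => ∑ j, (κ' (coc g j) + u (coc g j) * τ (perm g j))

variable {f : G → A} {f₁ u κ' : H → A} {τ : ι → A}

/-- (K5), left version: the transfer of a primitive of `f₁ ∪ u` is a primitive of `f ∪ tr u`. -/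
theorem IsCocSys.isKappa_trKappaL [Fintype ι] (hs : IsCocSys perm coc) (hκ' : IsKappa f₁ u κ')
    (hu : IsAddFn u) (hcompat : ∀ g j, f₁ (coc g j) = f g + τ j - τ (perm g j)) :
    IsKappa f (trFn coc u) (trKappaL coc τ u κ') := by
  intro g g'
  show ∑ j, (κ' (coc (g * g') j) - τ j * u (coc (g * g') j)) =
    ∑ j, (κ' (coc g j) - τ j * u (coc g j)) + ∑ j, (κ' (coc g' j) - τ j * u (coc g' j)) +
      f g * ∑ j, u (coc g' j)
  rw [← Equiv.sum_comp (hs.permEquiv g) (fun j => κ' (coc g' j) - τ j * u (coc g' j)),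
    ← Equiv.sum_comp (hs.permEquiv g) (fun j => u (coc g' j)), Finset.mul_sum,
    ← Finset.sum_add_distrib, ← Finset.sum_add_distrib]
  refine Finset.sum_congr rfl fun j _ => ?_
  show _ = κ' (coc g j) - τ j * u (coc g j) +
    (κ' (coc g' (perm g j)) - τ (perm g j) * u (coc g' (perm g j))) +
      f g * u (coc g' (perm g j))
  rw [hs.coc_mul, hκ', hu, hcompat]
  ring

/-- (K5), right version: the transfer of a primitive of `u ∪ f₁` is a primitive of `tr u ∪ f`. -/
theorem IsCocSys.isKappa_trKappaR [Fintype ι] (hs : IsCocSys perm coc) (hκ' : IsKappa u f₁ κ')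
    (hu : IsAddFn u) (hcompat : ∀ g j, f₁ (coc g j) = f g + τ j - τ (perm g j)) :
    IsKappa (trFn coc u) f (trKappaR perm coc τ u κ') := by
  intro g g'
  show ∑ j, (κ' (coc (g * g') j) + u (coc (g * g') j) * τ (perm (g * g') j)) =
    ∑ j, (κ' (coc g j) + u (coc g j) * τ (perm g j)) +
      ∑ j, (κ' (coc g' j) + u (coc g' j) * τ (perm g' j)) + (∑ j, u (coc g j)) * f g'
  rw [← Equiv.sum_comp (hs.permEquiv g) (fun j => κ' (coc g' j) + u (coc g' j) * τ (perm g' j)),
    Finset.sum_mul, ← Finset.sum_add_distrib, ← Finset.sum_add_distrib]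
  refine Finset.sum_congr rfl fun j _ => ?_
  show _ = κ' (coc g j) + u (coc g j) * τ (perm g j) +
    (κ' (coc g' (perm g j)) + u (coc g' (perm g j)) * τ (perm g' (perm g j))) +
      u (coc g j) * f g'
  rw [hs.coc_mul, hs.perm_mul, hκ', hu, hcompat g' (perm g j)]
  ring

/-- Partial sums of the left transferred primitive along an orbit. -/
theorem IsCocSys.trKappaL_sum_range (hs : IsCocSys perm coc) (hκ' : IsKappa f₁ u κ')
    (hf : IsAddFn f) (hu : IsAddFn u)
    (hcompat : ∀ g j, f₁ (coc g j) = f g + τ j - τ (perm g j)) {c : G} (hc : f c = 0) (r : ι)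
    (e : ℕ) :
    ∑ a ∈ Finset.range e,
        (κ' (coc c ((perm c)^[a] r)) - τ ((perm c)^[a] r) * u (coc c ((perm c)^[a] r))) =
      κ' (coc (c ^ e) r) - τ r * u (coc (c ^ e) r) := by
  induction e with
  | zero => simp [hs.coc_one, hκ'.one' hu, hu.one]
  | succ e ih =>
    rw [Finset.sum_range_succ, ih, pow_succ, hs.coc_mul, hκ', hu, hcompat (c ^ e) r, hf.pow, hc,
      hs.perm_pow]
    ring

/-- Partial sums of the right transferred primitive along an orbit. -/
theorem IsCocSys.trKappaR_sum_range (hs : IsCocSys perm coc) (hκ' : IsKappa u f₁ κ')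
    (hu : IsAddFn u)
    (hcompat : ∀ g j, f₁ (coc g j) = f g + τ j - τ (perm g j)) {c : G} (hc : f c = 0) (r : ι)
    (e : ℕ) :
    ∑ a ∈ Finset.range e,
        (κ' (coc c ((perm c)^[a] r)) +
          u (coc c ((perm c)^[a] r)) * τ (perm c ((perm c)^[a] r))) =
      κ' (coc (c ^ e) r) + u (coc (c ^ e) r) * τ ((perm c)^[e] r) := by
  induction e with
  | zero => simp [hs.coc_one, hκ'.one hu, hu.one]
  | succ e ih =>
    rw [Finset.sum_range_succ, ih, pow_succ, hs.coc_mul, hκ', hu, hs.perm_pow,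
      hcompat c ((perm c)^[e] r), hc, Function.iterate_succ_apply']
    ring

/-- (K5), orbit formula, left version. -/
theorem IsCocSys.trKappaL_apply [Fintype ι] {D : Type*} [Fintype D] (hs : IsCocSys perm coc)
    (hκ' : IsKappa f₁ u κ') (hf : IsAddFn f) (hu : IsAddFn u)
    (hcompat : ∀ g j, f₁ (coc g j) = f g + τ j - τ (perm g j)) {c : G} (hc : f c = 0)
    {r : D → ι} {e : D → ℕ} (horb : IsOrbDecomp (perm c) r e) :
    trKappaL coc τ u κ' c =
      ∑ d, (κ' (coc (c ^ e d) (r d)) - τ (r d) * u (coc (c ^ e d) (r d))) := by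
  show ∑ j, (κ' (coc c j) - τ j * u (coc c j)) = _
  rw [horb.sum_eq (fun j => κ' (coc c j) - τ j * u (coc c j))]
  exact Finset.sum_congr rfl fun d _ => hs.trKappaL_sum_range hκ' hf hu hcompat hc (r d) (e d)

/-- (K5), orbit formula, right version. -/
theorem IsCocSys.trKappaR_apply [Fintype ι] {D : Type*} [Fintype D] (hs : IsCocSys perm coc)
    (hκ' : IsKappa u f₁ κ') (hu : IsAddFn u)
    (hcompat : ∀ g j, f₁ (coc g j) = f g + τ j - τ (perm g j)) {c : G} (hc : f c = 0)
    {r : D → ι} {e : D → ℕ} (horb : IsOrbDecomp (perm c) r e) :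
    trKappaR perm coc τ u κ' c =
      ∑ d, (κ' (coc (c ^ e d) (r d)) + u (coc (c ^ e d) (r d)) * τ (r d)) := by
  show ∑ j, (κ' (coc c j) + u (coc c j) * τ (perm c j)) = _
  rw [horb.sum_eq (fun j => κ' (coc c j) + u (coc c j) * τ (perm c j))]
  refine Finset.sum_congr rfl fun d _ => ?_
  rw [hs.trKappaR_sum_range hκ' hu hcompat hc (r d) (e d), horb.closed d]

/-- The cycle products of an element of finite order have finite order. -/
theorem IsCocSys.isOfFinOrder_coc_pow {D : Type*} (hs : IsCocSys perm coc) {c : G}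
    (hc : IsOfFinOrder c) {r : D → ι} {e : D → ℕ} (horb : IsOrbDecomp (perm c) r e) (d : D) :
    IsOfFinOrder (coc (c ^ e d) (r d)) := by
  refine hs.isOfFinOrder_coc ?_ hc.pow
  rw [hs.perm_pow]
  exact horb.closed d

/-- Normalisation on elements of finite order is preserved by the left transfer. -/
theorem IsCocSys.isNormKappa_trKappaL [Fintype ι] (hs : IsCocSys perm coc)
    (hκ' : IsNormKappa f₁ u κ') (hf : IsAddFn f) (hu : IsAddFn u)
    (hcompat : ∀ g j, f₁ (coc g j) = f g + τ j - τ (perm g j))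
    (hffin : ∀ g, IsOfFinOrder g → f g = 0) (hufin : ∀ h, IsOfFinOrder h → u h = 0) :
    IsNormKappa f (trFn coc u) (trKappaL coc τ u κ') := by
  refine ⟨hs.isKappa_trKappaL hκ'.1 hu hcompat, fun g hg => ?_⟩
  obtain ⟨D, _, r, e, horb⟩ := exists_isOrbDecomp (hs.permEquiv g)
  rw [hs.coe_permEquiv] at horb
  rw [hs.trKappaL_apply hκ'.1 hf hu hcompat (hffin g hg) horb]
  refine Finset.sum_eq_zero fun d _ => ?_
  have hfin := hs.isOfFinOrder_coc_pow hg horb d
  rw [hκ'.2 _ hfin, hufin _ hfin]
  ring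

/-- Normalisation on elements of finite order is preserved by the right transfer. -/
theorem IsCocSys.isNormKappa_trKappaR [Fintype ι] (hs : IsCocSys perm coc)
    (hκ' : IsNormKappa u f₁ κ') (hu : IsAddFn u)
    (hcompat : ∀ g j, f₁ (coc g j) = f g + τ j - τ (perm g j))
    (hffin : ∀ g, IsOfFinOrder g → f g = 0) (hufin : ∀ h, IsOfFinOrder h → u h = 0) :
    IsNormKappa (trFn coc u) f (trKappaR perm coc τ u κ') := by
  refine ⟨hs.isKappa_trKappaR hκ'.1 hu hcompat, fun g hg => ?_⟩
  obtain ⟨D, _, r, e, horb⟩ := exists_isOrbDecomp (hs.permEquiv g)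
  rw [hs.coe_permEquiv] at horb
  rw [hs.trKappaR_apply hκ'.1 hu hcompat (hffin g hg) horb]
  refine Finset.sum_eq_zero fun d _ => ?_
  have hfin := hs.isOfFinOrder_coc_pow hg horb d
  rw [hκ'.2 _ hfin, hufin _ hfin]
  ring

end transfer

end Fermat.Agent.S41.H99
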