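import Mathlib
import Fermat.Agent.S41.H99.KappaTransfer

/-!
# S41 (PAIR, sub-leaf P3): the kappa-calculus, part 3 — the pairing

For a finite *boundary family* `γ : C → G` and a primitive `κ` of `f ∪ f'` put
`pairOf κ γ = -∑ c, κ (γ c)`.

* `IsBdy A γ` : the hypothesis (BDY) `∑ c, χ (γ c) = 0` for every additive `χ : G → A` vanishing
  on the elements of finite order;
* `pairOf_eq_of_isNormKappa` (WD) : independence of the normalised primitive;
* `pairOf_swap` (SKEW) : skew-symmetry;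
* `ConjFam γ γ'` : two families are conjugate up to a bijection of the index sets;
  `pairOf_congr_conjFam` : the pairing only depends on the family up to `ConjFam`;
* `pairOf_comp` : pull-back along a homomorphism;
* `IsCocSys.pairOf_trKappaL`, `IsCocSys.pairOf_trKappaR` (PROJ, orbit form) : the pairing of a
  transferred primitive is the pairing of the original primitive against the induced family of
  cycle products.
-/

set_option autoImplicit false
set_option linter.unusedSectionVars false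

universe uι

namespace Fermat.Agent.S41.H99

variable {G H : Type*} [Group G] [Group H] {ι : Type uι} {A : Type*} [CommRing A]

/-- The pairing attached to a primitive `κ` and a boundary family `γ`. -/
def pairOf {C : Type*} [Fintype C] (κ : G → A) (γ : C → G) : A := - ∑ c, κ (γ c)

/-- (BDY) Additive functions vanishing on the elements of finite order sum to zero over the
boundary family. -/
def IsBdy (A : Type*) [CommRing A] {C : Type*} [Fintype C] (γ : C → G) : Prop :=
  ∀ χ : G → A, IsAddFn χ → (∀ g, IsOfFinOrder g → χ g = 0) → ∑ c, χ (γ c) = 0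

/-- Two families are conjugate up to a bijection of the index sets. -/
def ConjFam {C C' : Type*} (γ : C → G) (γ' : C' → G) : Prop :=
  ∃ σ : C ≃ C', ∀ c, ∃ g : G, γ' (σ c) = g * γ c * g⁻¹

theorem ConjFam.refl {C : Type*} (γ : C → G) : ConjFam γ γ :=
  ⟨Equiv.refl C, fun c => ⟨1, by simp⟩⟩

theorem ConjFam.symm {C C' : Type*} {γ : C → G} {γ' : C' → G} (h : ConjFam γ γ') :
    ConjFam γ' γ := by
  obtain ⟨σ, hσ⟩ := h
  refine ⟨σ.symm, fun c' => ?_⟩
  obtain ⟨g, hg⟩ := hσ (σ.symm c')
  rw [Equiv.apply_symm_apply] at hg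
  exact ⟨g⁻¹, by rw [hg]; group⟩

theorem ConjFam.trans {C C' C'' : Type*} {γ : C → G} {γ' : C' → G} {γ'' : C'' → G}
    (h : ConjFam γ γ') (h' : ConjFam γ' γ'') : ConjFam γ γ'' := by
  obtain ⟨σ, hσ⟩ := h
  obtain ⟨σ', hσ'⟩ := h'
  refine ⟨σ.trans σ', fun c => ?_⟩
  obtain ⟨g, hg⟩ := hσ c
  obtain ⟨g', hg'⟩ := hσ' (σ c)
  exact ⟨g' * g, by rw [Equiv.trans_apply, hg', hg]; group⟩

theorem ConjFam.map {G' : Type*} [Group G'] {C C' : Type*} {γ : C → G} {γ' : C' → G}
    (h : ConjFam γ γ') (θ : G →* G') : ConjFam (fun c => θ (γ c)) (fun c => θ (γ' c)) := by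
  obtain ⟨σ, hσ⟩ := h
  refine ⟨σ, fun c => ?_⟩
  obtain ⟨g, hg⟩ := hσ c
  refine ⟨θ g, ?_⟩
  show θ (γ' (σ c)) = θ g * θ (γ c) * (θ g)⁻¹
  rw [hg, map_mul, map_mul, map_inv]

section pairing

variable {C : Type*} [Fintype C] {f f' κ : G → A} {γ : C → G}

/-- (WD) The pairing does not depend on the normalised primitive. -/
theorem pairOf_eq_of_isNormKappa {κ₁ : G → A} (hb : IsBdy A γ) (hκ : IsNormKappa f f' κ)
    (hκ₁ : IsNormKappa f f' κ₁) : pairOf κ γ = pairOf κ₁ γ := by
  have h := hb (fun g => κ g - κ₁ g) (hκ.sub_isAddFn hκ₁).1 (hκ.sub_isAddFn hκ₁).2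
  rw [Finset.sum_sub_distrib, sub_eq_zero] at h
  rw [pairOf, pairOf, h]

/-- (WD'), without normalisation: if (BDY) holds for all additive functions. -/
theorem pairOf_eq_of_isKappa {κ₁ : G → A} (hb : ∀ χ : G → A, IsAddFn χ → ∑ c, χ (γ c) = 0)
    (hκ : IsKappa f f' κ) (hκ₁ : IsKappa f f' κ₁) : pairOf κ γ = pairOf κ₁ γ := by
  have h := hb (fun g => κ g - κ₁ g) (hκ.sub_isAddFn hκ₁)
  rw [Finset.sum_sub_distrib, sub_eq_zero] at h
  rw [pairOf, pairOf, h]

/-- (SKEW) The pairing computed with the swapped primitive `f * f' - κ` of `f' ∪ f`. -/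
theorem pairOf_swap (κ : G → A) (hγ : ∀ c, f (γ c) = 0) :
    pairOf (fun g => f g * f' g - κ g) γ = - pairOf κ γ := by
  simp only [pairOf, hγ, zero_mul, zero_sub, Finset.sum_neg_distrib]

omit [Fintype C] in
/-- Pull-back along a homomorphism. -/
theorem pairOf_comp {G' : Type*} [Group G'] {C' : Type*} [Fintype C'] (θ : G' →* G) (κ : G → A)
    (γ' : C' → G') : pairOf (fun g => κ (θ g)) γ' = pairOf κ (fun c => θ (γ' c)) := rfl

/-- The pairing only depends on the boundary family up to conjugacy and reindexing. -/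
theorem pairOf_congr_conjFam {C' : Type*} [Fintype C'] {γ' : C' → G} (hκ : IsKappa f f' κ)
    (hf : IsAddFn f) (hf' : IsAddFn f') (h : ConjFam γ γ') (h0 : ∀ c, f (γ c) = 0)
    (h0' : ∀ c, f' (γ c) = 0) : pairOf κ γ' = pairOf κ γ := by
  obtain ⟨σ, hσ⟩ := h
  rw [pairOf, pairOf, ← Equiv.sum_comp σ (fun c' => κ (γ' c'))]
  congr 1
  refine Finset.sum_congr rfl fun c _ => ?_
  obtain ⟨g, hg⟩ := hσ c
  rw [hg, hκ.conj hf hf' g (h0 c) (h0' c)]

/-- Additivity of the pairing in the primitive. -/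
theorem pairOf_add (κ κ₁ : G → A) (γ : C → G) :
    pairOf (fun g => κ g + κ₁ g) γ = pairOf κ γ + pairOf κ₁ γ := by
  simp only [pairOf, Finset.sum_add_distrib]
  ring

theorem pairOf_neg (κ : G → A) (γ : C → G) : pairOf (fun g => - κ g) γ = - pairOf κ γ := by
  simp only [pairOf, Finset.sum_neg_distrib]

theorem pairOf_const_mul (a : A) (κ : G → A) (γ : C → G) :
    pairOf (fun g => a * κ g) γ = a * pairOf κ γ := by
  simp only [pairOf, ← Finset.mul_sum]
  ring

theorem pairOf_zero (γ : C → G) : pairOf (fun _ : G => (0 : A)) γ = 0 := by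
  simp [pairOf]

end pairing

section projection

variable {perm : G → ι → ι} {coc : G → ι → H} {f : G → A} {f₁ u κ' : H → A} {τ : ι → A}

/-- (PROJ), orbit form, left version: the pairing of the transferred primitive against a family
`γ` of `G` is the pairing of the original primitive against the family of cycle products. -/
theorem IsCocSys.pairOf_trKappaL [Fintype ι] (hs : IsCocSys perm coc) (hκ' : IsKappa f₁ u κ')
    (hf : IsAddFn f) (hu : IsAddFn u)
    (hcompat : ∀ g j, f₁ (coc g j) = f g + τ j - τ (perm g j))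
    {C : Type*} [Fintype C] {γ : C → G} (hγ : ∀ c, f (γ c) = 0)
    {D : C → Type*} [∀ c, Fintype (D c)] {r : ∀ c, D c → ι} {e : ∀ c, D c → ℕ}
    (horb : ∀ c, IsOrbDecomp (perm (γ c)) (r c) (e c))
    (hu0 : ∀ c d, u (coc (γ c ^ e c d) (r c d)) = 0) :
    pairOf (trKappaL coc τ u κ') γ =
      pairOf κ' (fun x : (c : C) × D c => coc (γ x.1 ^ e x.1 x.2) (r x.1 x.2)) := by
  rw [pairOf, pairOf, Fintype.sum_sigma]
  congr 1
  refine Finset.sum_congr rfl fun c _ => ?_
  rw [hs.trKappaL_apply hκ' hf hu hcompat (hγ c) (horb c)]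
  refine Finset.sum_congr rfl fun d _ => ?_
  rw [hu0 c d]
  ring

/-- (PROJ), orbit form, right version. -/
theorem IsCocSys.pairOf_trKappaR [Fintype ι] (hs : IsCocSys perm coc) (hκ' : IsKappa u f₁ κ')
    (hu : IsAddFn u)
    (hcompat : ∀ g j, f₁ (coc g j) = f g + τ j - τ (perm g j))
    {C : Type*} [Fintype C] {γ : C → G} (hγ : ∀ c, f (γ c) = 0)
    {D : C → Type*} [∀ c, Fintype (D c)] {r : ∀ c, D c → ι} {e : ∀ c, D c → ℕ}
    (horb : ∀ c, IsOrbDecomp (perm (γ c)) (r c) (e c))
    (hu0 : ∀ c d, u (coc (γ c ^ e c d) (r c d)) = 0) :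
    pairOf (trKappaR perm coc τ u κ') γ =
      pairOf κ' (fun x : (c : C) × D c => coc (γ x.1 ^ e x.1 x.2) (r x.1 x.2)) := by
  rw [pairOf, pairOf, Fintype.sum_sigma]
  congr 1
  refine Finset.sum_congr rfl fun c _ => ?_
  rw [hs.trKappaR_apply hκ' hu hcompat (hγ c) (horb c)]
  refine Finset.sum_congr rfl fun d _ => ?_
  rw [hu0 c d]
  ring

end projection

end Fermat.Agent.S41.H99
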