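import Mathlib
import Fermat.Agent.S41.H99.KappaPair

/-!
# S41 (PAIR, sub-leaf P3): the kappa-calculus, part 4 — parabolic bases

Abstract form of "a system of representatives of the primitive positive parabolic elements".

* `IsParSet P` : `P ⊆ G` is stable under conjugation and positive powers;
* `IsParBasis P Z γ` : every element of `P` is conjugate to a positive power `γ c ^ n` for a
  unique `c` and a unique `n`, and the conjugating element is unique up to `Z` and powers of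
  `γ c`;
* `IsParBasis.conjFam_of_mulEquiv` (B1) : an isomorphism carrying `P₁` onto `P₂` carries a basis
  of `P₁` to a family which is conjugate, up to a bijection of the index sets, to any basis of
  `P₂`;
* `IsParBasis.induced` (B2) : for an injective `c : H →* G` and a complete system of coset
  representatives `t : ι → G` of `c(H)` with its cocycle system, the cycle products
  `coc (γ a ^ e) r` (one for each orbit of `γ a` on `ι`) form a basis of `c ⁻¹' P`;
* `pairOf_trKappaL_eq_of_isParBasis`, `pairOf_trKappaR_eq_of_isParBasis` (PROJ, final form);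
* `pairOf_comp_mulEquiv` (CONJ, final form).
-/

set_option autoImplicit false
set_option linter.unusedSectionVars false

universe uι

namespace Fermat.Agent.S41.H99

variable {G H : Type*} [Group G] [Group H] {ι : Type uι} {A : Type*} [CommRing A]

/-- A set stable under conjugation and positive powers. -/
structure IsParSet (P : Set G) : Prop where
  conj_mem : ∀ g x, x ∈ P → g * x * g⁻¹ ∈ P
  pow_mem : ∀ x ∈ P, ∀ n : ℕ, 0 < n → x ^ n ∈ P

/-- `γ` is a system of representatives of the primitive elements of `P` up to conjugacy. -/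
structure IsParBasis (P : Set G) (Z : Set G) {C : Type*} (γ : C → G) : Prop where
  mem : ∀ c, γ c ∈ P
  ex : ∀ x ∈ P, ∃ (c : C) (g : G) (n : ℕ), 0 < n ∧ x = g * γ c ^ n * g⁻¹
  uniq : ∀ (c c' : C) (g : G) (n n' : ℕ), 0 < n → 0 < n' → g * γ c ^ n * g⁻¹ = γ c' ^ n' →
    c = c' ∧ n = n' ∧ ∃ z ∈ Z, ∃ m : ℤ, g = z * γ c ^ m

theorem IsParSet.preimage {P : Set G} (hP : IsParSet P) (c : H →* G) : IsParSet (c ⁻¹' P) :=
  ⟨fun g x hx => by
      show c (g * x * g⁻¹) ∈ P
      rw [map_mul, map_mul, map_inv]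
      exact hP.conj_mem _ _ hx,
    fun x hx n hn => by
      show c (x ^ n) ∈ P
      rw [map_pow]
      exact hP.pow_mem _ hx n hn⟩

/-- (B1) An isomorphism carrying `P₁` onto `P₂` matches bases up to conjugacy and reindexing. -/
theorem IsParBasis.conjFam_of_mulEquiv {G₁ G₂ : Type*} [Group G₁] [Group G₂] (θ : G₁ ≃* G₂)
    {P₁ : Set G₁} {P₂ : Set G₂} {Z₁ : Set G₁} {Z₂ : Set G₂} {C₁ C₂ : Type*} {γ₁ : C₁ → G₁}
    {γ₂ : C₂ → G₂} (hθ : ∀ x, x ∈ P₁ ↔ θ x ∈ P₂) (h₁ : IsParBasis P₁ Z₁ γ₁)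
    (h₂ : IsParBasis P₂ Z₂ γ₂) : ConjFam (fun c => θ (γ₁ c)) γ₂ := by
  have key : ∀ a : C₁, ∃ b : C₂, ∃ g : G₂, θ (γ₁ a) = g * γ₂ b * g⁻¹ := by
    intro a
    obtain ⟨b, g, n, hn, hx⟩ := h₂.ex (θ (γ₁ a)) ((hθ _).mp (h₁.mem a))
    have hb : θ.symm (γ₂ b) ∈ P₁ := (hθ _).mpr (by rw [θ.apply_symm_apply]; exact h₂.mem b)
    obtain ⟨a', g', n', hn', hx'⟩ := h₁.ex _ hb
    have e1 : (θ.symm g * g') * γ₁ a' ^ (n' * n) * (θ.symm g * g')⁻¹ = γ₁ a ^ 1 := by
      have e2 : γ₁ a = θ.symm (θ (γ₁ a)) := (θ.symm_apply_apply _).symm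
      rw [pow_one, e2, hx, map_mul, map_mul, map_inv, map_pow, hx', conj_pow, ← pow_mul]
      group
    obtain ⟨-, hnn, -⟩ := h₁.uniq a' a _ (n' * n) 1 (Nat.mul_pos hn' hn) one_pos e1
    have hn1 : n = 1 := Nat.eq_one_of_mul_eq_one_left hnn
    exact ⟨b, g, by rw [hx, hn1, pow_one]⟩
  choose σ gσ hσ using key
  have hinj : Function.Injective σ := by
    intro a a₁ h
    have e1 := hσ a
    have e2 := hσ a₁
    rw [h] at e1
    have e4 : θ.symm (gσ a₁ * (gσ a)⁻¹) * γ₁ a ^ 1 * (θ.symm (gσ a₁ * (gσ a)⁻¹))⁻¹ =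
        γ₁ a₁ ^ 1 := by
      apply θ.injective
      rw [pow_one, pow_one, map_mul, map_mul, map_inv, θ.apply_symm_apply, e1, e2]
      group
    exact (h₁.uniq a a₁ _ 1 1 one_pos one_pos e4).1
  have hsurj : Function.Surjective σ := by
    intro b
    have hb : θ.symm (γ₂ b) ∈ P₁ := (hθ _).mpr (by rw [θ.apply_symm_apply]; exact h₂.mem b)
    obtain ⟨a, g', n', hn', hx'⟩ := h₁.ex _ hb
    refine ⟨a, ?_⟩
    have e1 : (θ g' * gσ a) * γ₂ (σ a) ^ n' * (θ g' * gσ a)⁻¹ = γ₂ b ^ 1 := by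
      have e2 : γ₂ b = θ (θ.symm (γ₂ b)) := (θ.apply_symm_apply _).symm
      rw [pow_one, e2, hx', map_mul, map_mul, map_inv, map_pow, hσ a, conj_pow]
      group
    exact (h₂.uniq (σ a) b _ n' 1 hn' one_pos e1).1
  refine ⟨Equiv.ofBijective σ ⟨hinj, hsurj⟩, fun a => ⟨(gσ a)⁻¹, ?_⟩⟩
  show γ₂ (σ a) = (gσ a)⁻¹ * θ (γ₁ a) * (gσ a)⁻¹⁻¹
  rw [hσ a]
  group

section induced

variable {c : H →* G} {t : ι → G} {perm : G → ι → ι} {coc : G → ι → H}

/-- In a system of coset representatives, `c h * t j' = t j * g` determines `perm g j` and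
`coc g j`. -/
theorem perm_coc_eq_of (hc : Function.Injective c)
    (hspec : ∀ g j, c (coc g j) = t j * g * (t (perm g j))⁻¹)
    (hdisj : ∀ j j' h, c h * t j = t j' → j = j') {g : G} {j j' : ι} {h : H}
    (e : c h * t j' = t j * g) : perm g j = j' ∧ coc g j = h := by
  have h1 : c (coc g j) * t (perm g j) = t j * g := by
    rw [hspec]
    group
  have h2 : c ((coc g j)⁻¹ * h) * t j' = t (perm g j) := by
    rw [map_mul, map_inv, mul_assoc, e, ← h1]
    group
  have h3 : j' = perm g j := hdisj _ _ _ h2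
  subst h3
  refine ⟨rfl, ?_⟩
  have h4 : c (coc g j) = c h := mul_right_cancel (h1.trans e.symm)
  exact hc h4

/-- (B2) The cycle products over the orbits of the `γ a` form a basis of `c ⁻¹' P`. -/
theorem IsParBasis.induced (hc : Function.Injective c) (hs : IsCocSys perm coc)
    (hspec : ∀ g j, c (coc g j) = t j * g * (t (perm g j))⁻¹)
    (hcomp : ∀ g : G, ∃ j h, g = c h * t j)
    (hdisj : ∀ j j' h, c h * t j = t j' → j = j')
    {P : Set G} (hP : IsParSet P) {Z : Set G} (hZc : ∀ z ∈ Z, ∀ g, z * g = g * z)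
    (hZr : ∀ z ∈ Z, ∃ h, c h = z) {C : Type*} {γ : C → G} (hγ : IsParBasis P Z γ)
    {D : C → Type*} {r : ∀ a, D a → ι} {e : ∀ a, D a → ℕ}
    (horb : ∀ a, IsOrbDecomp (perm (γ a)) (r a) (e a)) :
    IsParBasis (c ⁻¹' P) (c ⁻¹' Z)
      (fun x : (a : C) × D a => coc (γ x.1 ^ e x.1 x.2) (r x.1 x.2)) := by
  have hfix : ∀ a d, perm (γ a ^ e a d) (r a d) = r a d := fun a d => by
    rw [hs.perm_pow]
    exact (horb a).closed d
  have hcval : ∀ a d, c (coc (γ a ^ e a d) (r a d)) =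
      t (r a d) * γ a ^ e a d * (t (r a d))⁻¹ := fun a d => by
    rw [hspec, hfix]
  refine ⟨?_, ?_, ?_⟩
  · rintro ⟨a, d⟩
    show c (coc (γ a ^ e a d) (r a d)) ∈ P
    rw [hcval]
    exact hP.conj_mem _ _ (hP.pow_mem _ (hγ.mem a) _ ((horb a).pos d))
  · intro x hx
    obtain ⟨a, g, n, hn, hxg⟩ := hγ.ex (c x) hx
    obtain ⟨j, h, hg⟩ := hcomp g
    obtain ⟨⟨d, b⟩, hdb⟩ := (horb a).bij.2 j
    have hdb' : (perm (γ a))^[(b : ℕ)] (r a d) = j := hdb
    have hj : perm (γ a ^ (b : ℕ)) (r a d) = j := by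
      rw [hs.perm_pow]
      exact hdb'
    have e1 : c (h⁻¹ * x * h) * t j = t j * γ a ^ n := by
      rw [map_mul, map_mul, map_inv, hxg, hg]
      group
    obtain ⟨hpj, hcj⟩ := perm_coc_eq_of hc hspec hdisj e1
    have hcomm : Commute (γ a ^ n) (γ a ^ (b : ℕ)) := (Commute.refl (γ a)).pow_pow n b
    have hpr : perm (γ a ^ n) (r a d) = r a d := by
      have h1 : perm (γ a ^ (b : ℕ)) (perm (γ a ^ n) (r a d)) =
          perm (γ a ^ (b : ℕ)) (r a d) := by
        rw [← hs.perm_mul, hcomm.eq, hs.perm_mul, hj, hpj]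
      exact (hs.permEquiv (γ a ^ (b : ℕ))).injective h1
    have hper : Function.IsPeriodicPt (perm (γ a)) n (r a d) := by
      show (perm (γ a))^[n] (r a d) = r a d
      rw [← hs.perm_pow]
      exact hpr
    have hper' : Function.IsPeriodicPt (perm (γ a)) (n % e a d) (r a d) :=
      hper.mod ((horb a).closed d)
    have hmod : n % e a d = 0 := by
      have hlt : n % e a d < e a d := Nat.mod_lt _ ((horb a).pos d)
      have h0 := (horb a).bij.1 (a₁ := ⟨d, ⟨n % e a d, hlt⟩⟩) (a₂ := ⟨d, ⟨0, (horb a).pos d⟩⟩)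
        (by
          show (perm (γ a))^[n % e a d] (r a d) = (perm (γ a))^[0] (r a d)
          rw [Function.iterate_zero, id]
          exact hper')
      exact congrArg (fun x : (d : D a) × Fin (e a d) => (x.2 : ℕ)) h0
    obtain ⟨m, hm⟩ : e a d ∣ n := Nat.dvd_of_mod_eq_zero hmod
    have hmpos : 0 < m := by
      rcases Nat.eq_zero_or_pos m with h0 | h0
      · rw [h0, mul_zero] at hm
        omega
      · exact h0
    have hconj := hs.coc_of_commute hcomm hpr
    rw [hj, hcj] at hconj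
    have hpow : coc (γ a ^ n) (r a d) = coc (γ a ^ e a d) (r a d) ^ m := by
      rw [hm, pow_mul, hs.coc_pow_of_fixed (hfix a d)]
    rw [hpow] at hconj
    refine ⟨⟨a, d⟩, h * (coc (γ a ^ (b : ℕ)) (r a d))⁻¹, m, hmpos, ?_⟩
    show x = h * (coc (γ a ^ (b : ℕ)) (r a d))⁻¹ * coc (γ a ^ e a d) (r a d) ^ m *
      (h * (coc (γ a ^ (b : ℕ)) (r a d))⁻¹)⁻¹
    have hx2 : x = h * (h⁻¹ * x * h) * h⁻¹ := by group
    rw [hx2, hconj]
    group
  · rintro ⟨a, d⟩ ⟨a', d'⟩ h n n' hn hn' heq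
    have heq' : h * coc (γ a ^ e a d) (r a d) ^ n * h⁻¹ =
        coc (γ a' ^ e a' d') (r a' d') ^ n' := heq
    have e1 : ((t (r a' d'))⁻¹ * c h * t (r a d)) * γ a ^ (e a d * n) *
        ((t (r a' d'))⁻¹ * c h * t (r a d))⁻¹ = γ a' ^ (e a' d' * n') := by
      have h1 := congrArg c heq'
      rw [map_mul, map_mul, map_inv, map_pow, map_pow, hcval, hcval, conj_pow, conj_pow,
        ← pow_mul, ← pow_mul] at h1
      have h2 : γ a' ^ (e a' d' * n') = (t (r a' d'))⁻¹ *
          (t (r a' d') * γ a' ^ (e a' d' * n') * (t (r a' d'))⁻¹) * t (r a' d') := by group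
      rw [h2, ← h1]
      group
    obtain ⟨haa, hen, z, hz, m, hgz⟩ := hγ.uniq a a' _ _ _
      (Nat.mul_pos ((horb a).pos d) hn) (Nat.mul_pos ((horb a').pos d') hn') e1
    subst haa
    obtain ⟨z', hz'⟩ := hZr z hz
    have e2 : c (z'⁻¹ * h) * t (r a d) = t (r a d') * γ a ^ m := by
      have h1 : c h * t (r a d) = t (r a d') * (z * γ a ^ m) := by
        rw [← hgz]
        group
      have h2 : t (r a d') * z = z * t (r a d') := (hZc z hz _).symm
      calc c (z'⁻¹ * h) * t (r a d) = z⁻¹ * (c h * t (r a d)) := by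
            rw [map_mul, map_inv, hz', mul_assoc]
        _ = z⁻¹ * (t (r a d') * z * γ a ^ m) := by rw [h1, mul_assoc]
        _ = z⁻¹ * (z * t (r a d') * γ a ^ m) := by rw [h2]
        _ = t (r a d') * γ a ^ m := by group
    obtain ⟨hpm, hcm⟩ := perm_coc_eq_of hc hspec hdisj e2
    -- reduce the exponent `m` modulo the orbit length
    have hE : (0 : ℤ) < (e a d' : ℤ) := by exact_mod_cast (horb a).pos d'
    set q : ℤ := m / (e a d' : ℤ) with hq
    have hk0 : 0 ≤ m % (e a d' : ℤ) := Int.emod_nonneg _ hE.ne'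
    have hklt : m % (e a d' : ℤ) < (e a d' : ℤ) := Int.emod_lt_of_pos _ hE
    obtain ⟨k, hk⟩ := Int.eq_ofNat_of_zero_le hk0
    have hkE : k < e a d' := by
      rw [hk] at hklt
      exact_mod_cast hklt
    have hmdecomp : m = (e a d' : ℤ) * q + (k : ℤ) := by
      rw [← hk, hq]
      exact (Int.mul_ediv_add_emod m (e a d')).symm
    have hγm : γ a ^ m = (γ a ^ e a d') ^ q * γ a ^ k := by
      rw [hmdecomp, zpow_add, zpow_mul, zpow_natCast, zpow_natCast]
    have hpk : (perm (γ a))^[k] (r a d') = r a d := by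
      rw [← hs.perm_pow, ← hpm, hγm, hs.perm_mul, hs.perm_zpow_of_fixed (hfix a d')]
    have h0 := (horb a).bij.1 (a₁ := ⟨d', ⟨k, hkE⟩⟩) (a₂ := ⟨d, ⟨0, (horb a).pos d⟩⟩)
      (by
        show (perm (γ a))^[k] (r a d') = (perm (γ a))^[0] (r a d)
        rw [Function.iterate_zero, id]
        exact hpk)
    have hdd : d' = d := congrArg Sigma.fst h0
    subst hdd
    have hk0' : k = 0 := congrArg (fun x : (d : D a) × Fin (e a d) => (x.2 : ℕ)) h0
    have hnn : n = n' := Nat.eq_of_mul_eq_mul_left ((horb a).pos d') hen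
    refine ⟨rfl, hnn, z', ?_, q, ?_⟩
    · show c z' ∈ Z
      rw [hz']
      exact hz
    · show h = z' * coc (γ a ^ e a d') (r a d') ^ q
      have hγm' : γ a ^ m = (γ a ^ e a d') ^ q := by
        rw [hγm, hk0', pow_zero, mul_one]
      rw [hγm', hs.coc_zpow_of_fixed (hfix a d')] at hcm
      rw [hcm]
      group

/-- (PROJ), final form, left version: for a basis `γ` of `P` in `G` and ANY basis `γ'` of
`c ⁻¹' P` in `H`, the pairing of the transferred primitive over `γ` is the pairing of the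
original primitive over `γ'`. -/
theorem pairOf_trKappaL_eq_of_isParBasis [Fintype ι] (hc : Function.Injective c)
    (hs : IsCocSys perm coc)
    (hspec : ∀ g j, c (coc g j) = t j * g * (t (perm g j))⁻¹)
    (hcomp : ∀ g : G, ∃ j h, g = c h * t j)
    (hdisj : ∀ j j' h, c h * t j = t j' → j = j')
    {P : Set G} (hP : IsParSet P) {Z : Set G} (hZc : ∀ z ∈ Z, ∀ g, z * g = g * z)
    (hZr : ∀ z ∈ Z, ∃ h, c h = z) {C : Type*} [Fintype C] {γ : C → G} (hγ : IsParBasis P Z γ)
    {C' : Type*} [Fintype C'] {γ' : C' → H} {Z' : Set H} (hγ' : IsParBasis (c ⁻¹' P) Z' γ')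
    {x : G → A} {u κ' : H → A} (hx : IsAddFn x) (hxP : ∀ g ∈ P, x g = 0) (hu : IsAddFn u)
    (huP : ∀ h, c h ∈ P → u h = 0) (hκ' : IsKappa (fun h => x (c h)) u κ') :
    pairOf (trKappaL coc (fun j => x (t j)) u κ') γ = pairOf κ' γ' := by
  classical
  have hex : ∀ a : C, ∃ (D : Type uι) (_ : Fintype D) (r : D → ι) (e : D → ℕ),
      IsOrbDecomp (perm (γ a)) r e := fun a => by
    have h1 := exists_isOrbDecomp (hs.permEquiv (γ a))
    rwa [hs.coe_permEquiv] at h1
  choose D instD r e horb using hex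
  have := instD
  have hcompat : ∀ g j, (fun h => x (c h)) (coc g j) =
      x g + (fun j => x (t j)) j - (fun j => x (t j)) (perm g j) := by
    intro g j
    show x (c (coc g j)) = x g + x (t j) - x (t (perm g j))
    rw [hspec, hx, hx, hx.inv]
    ring
  have hind := hγ.induced hc hs hspec hcomp hdisj hP hZc hZr horb
  have hxc : IsAddFn (fun h => x (c h)) := hx.comp c
  rw [hs.pairOf_trKappaL hκ' hx hu hcompat (fun a => hxP _ (hγ.mem a)) horb
    (fun a d => huP _ (hind.mem ⟨a, d⟩))]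
  have hcf : ConjFam (fun y : (a : C) × D a => coc (γ y.1 ^ e y.1 y.2) (r y.1 y.2)) γ' :=
    IsParBasis.conjFam_of_mulEquiv (MulEquiv.refl H) (fun _ => Iff.rfl) hind hγ'
  exact (pairOf_congr_conjFam hκ' hxc hu hcf (fun y => hxP _ (hind.mem y))
    (fun y => huP _ (hind.mem y))).symm

/-- (PROJ), final form, right version. -/
theorem pairOf_trKappaR_eq_of_isParBasis [Fintype ι] (hc : Function.Injective c)
    (hs : IsCocSys perm coc)
    (hspec : ∀ g j, c (coc g j) = t j * g * (t (perm g j))⁻¹)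
    (hcomp : ∀ g : G, ∃ j h, g = c h * t j)
    (hdisj : ∀ j j' h, c h * t j = t j' → j = j')
    {P : Set G} (hP : IsParSet P) {Z : Set G} (hZc : ∀ z ∈ Z, ∀ g, z * g = g * z)
    (hZr : ∀ z ∈ Z, ∃ h, c h = z) {C : Type*} [Fintype C] {γ : C → G} (hγ : IsParBasis P Z γ)
    {C' : Type*} [Fintype C'] {γ' : C' → H} {Z' : Set H} (hγ' : IsParBasis (c ⁻¹' P) Z' γ')
    {x : G → A} {u κ' : H → A} (hx : IsAddFn x) (hxP : ∀ g ∈ P, x g = 0) (hu : IsAddFn u)
    (huP : ∀ h, c h ∈ P → u h = 0) (hκ' : IsKappa u (fun h => x (c h)) κ') :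
    pairOf (trKappaR perm coc (fun j => x (t j)) u κ') γ = pairOf κ' γ' := by
  classical
  have hex : ∀ a : C, ∃ (D : Type uι) (_ : Fintype D) (r : D → ι) (e : D → ℕ),
      IsOrbDecomp (perm (γ a)) r e := fun a => by
    have h1 := exists_isOrbDecomp (hs.permEquiv (γ a))
    rwa [hs.coe_permEquiv] at h1
  choose D instD r e horb using hex
  have := instD
  have hcompat : ∀ g j, (fun h => x (c h)) (coc g j) =
      x g + (fun j => x (t j)) j - (fun j => x (t j)) (perm g j) := by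
    intro g j
    show x (c (coc g j)) = x g + x (t j) - x (t (perm g j))
    rw [hspec, hx, hx, hx.inv]
    ring
  have hind := hγ.induced hc hs hspec hcomp hdisj hP hZc hZr horb
  have hxc : IsAddFn (fun h => x (c h)) := hx.comp c
  rw [hs.pairOf_trKappaR hκ' hu hcompat (fun a => hxP _ (hγ.mem a)) horb
    (fun a d => huP _ (hind.mem ⟨a, d⟩))]
  have hcf : ConjFam (fun y : (a : C) × D a => coc (γ y.1 ^ e y.1 y.2) (r y.1 y.2)) γ' :=
    IsParBasis.conjFam_of_mulEquiv (MulEquiv.refl H) (fun _ => Iff.rfl) hind hγ'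
  exact (pairOf_congr_conjFam hκ' hu hxc hcf (fun y => huP _ (hind.mem y))
    (fun y => hxP _ (hind.mem y))).symm

end induced

/-- (CONJ), final form: invariance of the pairing under an isomorphism matching the parabolic
sets. -/
theorem pairOf_comp_mulEquiv {G₁ G₂ : Type*} [Group G₁] [Group G₂] (θ : G₁ ≃* G₂)
    {P₁ : Set G₁} {P₂ : Set G₂} {Z₁ : Set G₁} {Z₂ : Set G₂} {C₁ C₂ : Type*} [Fintype C₁]
    [Fintype C₂] {γ₁ : C₁ → G₁} {γ₂ : C₂ → G₂} (hθ : ∀ x, x ∈ P₁ ↔ θ x ∈ P₂)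
    (h₁ : IsParBasis P₁ Z₁ γ₁) (h₂ : IsParBasis P₂ Z₂ γ₂) {f f' κ : G₂ → A}
    (hκ : IsKappa f f' κ) (hf : IsAddFn f) (hf' : IsAddFn f') (hfP : ∀ g ∈ P₂, f g = 0)
    (hf'P : ∀ g ∈ P₂, f' g = 0) : pairOf (fun g => κ (θ g)) γ₁ = pairOf κ γ₂ := by
  have hcf := IsParBasis.conjFam_of_mulEquiv θ hθ h₁ h₂
  have h := pairOf_congr_conjFam hκ hf hf' hcf (fun c => hfP _ ((hθ _).mp (h₁.mem c)))
    (fun c => hf'P _ ((hθ _).mp (h₁.mem c)))
  rw [h]
  rfl

end Fermat.Agent.S41.H99
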