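import Mathlib
import Fermat.Agent.S41.H62.CuspOrbit
import Fermat.Agent.S41.H33.Pairing
import Fermat.Agent.S41.H99.ParBasis

/-!
# S41 (PAIR): cusp systems as parabolic bases, and the intrinsic form of `pairZ`

* `posPar Γ`, `cen Γ` : the positive parabolic elements of `Γ` and `{±1} ∩ Γ`, as sets of `↥Γ`;
* `isParBasis_of_isCuspSystem` (C1) : a cusp system of `Γ ∋ -1` (in the sense of `S41.H62`) is a
  parabolic basis of `(posPar Γ, cen Γ)` (in the sense of `S41.H99.ParBasis`);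
* `pairZ_eq_pairOf` (INTRINSIC, cusp form) : for parabolic `φ ψ : Γ → ℤ`, ANY `κ` with
  `κ (γ γ') = κ γ + κ γ' + φ γ * ψ γ'` and ANY cusp system `c` of `Γ`:
  `pairZ Γ φ ψ = - ∑ j, κ (c j)`.
-/

set_option autoImplicit false

open scoped MatrixGroups
open ModularGroup ModularCurve.Period
open Fermat.Agent.S16.H97
open Fermat.Agent.S41.H62 (IsPosPar IsPPP IsCuspSystem)
open Fermat.Agent.S41.H33 (pairZ)

namespace Fermat.Agent.S41.H99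

variable {Γ : Subgroup SL(2, ℤ)}

/-- The positive parabolic elements of `Γ`. -/
def posPar (Γ : Subgroup SL(2, ℤ)) : Set Γ := {g | IsPosPar (g : SL(2, ℤ))}

/-- The elements `±1` of `Γ`. -/
def cen (Γ : Subgroup SL(2, ℤ)) : Set Γ := {z | (z : SL(2, ℤ)) = 1 ∨ (z : SL(2, ℤ)) = -1}

theorem mem_posPar {g : Γ} : g ∈ posPar Γ ↔ IsPosPar (g : SL(2, ℤ)) := Iff.rfl

theorem isPosPar_conj {g : SL(2, ℤ)} (hg : IsPosPar g) (s : SL(2, ℤ)) :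
    IsPosPar (s * g * s⁻¹) := by
  obtain ⟨h, m, hm, rfl⟩ := hg
  exact ⟨h * s⁻¹, m, hm, (Fermat.Agent.S41.H62.conj_mul_inv h s _).symm⟩

theorem isParSet_posPar (Γ : Subgroup SL(2, ℤ)) : IsParSet (posPar Γ) :=
  ⟨fun g x hx => by
      show IsPosPar ((g * x * g⁻¹ : Γ) : SL(2, ℤ))
      rw [Subgroup.coe_mul, Subgroup.coe_mul, Subgroup.coe_inv]
      exact isPosPar_conj hx _,
    fun x hx n hn => by
      show IsPosPar ((x ^ n : Γ) : SL(2, ℤ))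
      rw [Subgroup.coe_pow]
      exact Fermat.Agent.S41.H62.IsPosPar.pow hx hn⟩

theorem cen_central (z : Γ) (hz : z ∈ cen Γ) (g : Γ) : z * g = g * z := by
  apply Subtype.ext
  rw [Subgroup.coe_mul, Subgroup.coe_mul]
  rcases hz with h | h
  · rw [h, one_mul, mul_one]
  · rw [h, neg_mul, one_mul, mul_neg, mul_one]

/-- A positive parabolic element has trace `2`, so parabolic homomorphisms vanish on it. -/
theorem apply_eq_zero_of_isPosPar {A : Type*} [AddCommGroup A] {φ : Additive Γ →+ A}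
    (hφ : IsParabolicHom Γ φ) {g : Γ} (hg : IsPosPar (g : SL(2, ℤ))) :
    φ (Additive.ofMul g) = 0 := by
  apply hφ
  rw [((Fermat.Agent.S41.H62.isPosPar_iff _).mp hg).1]
  norm_num

/-- (C1) A cusp system is a parabolic basis. -/
theorem isParBasis_of_isCuspSystem (hneg : (-1 : SL(2, ℤ)) ∈ Γ) {J : Type*}
    {c : J → SL(2, ℤ)} (hc : IsCuspSystem Γ c) :
    IsParBasis (posPar Γ) (cen Γ) (fun j => (⟨c j, (hc.1 j).mem⟩ : Γ)) := by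
  refine ⟨fun j => (hc.1 j).isPosPar, ?_, ?_⟩
  · intro x hx
    obtain ⟨c₀, e, hc₀, he, hxe⟩ := Fermat.Agent.S41.H62.exists_isPPP_pow x.2 hx
    obtain ⟨j, ⟨s, hs, hcs⟩, -⟩ := hc.2 c₀ hc₀
    refine ⟨j, ⟨s, hs⟩, e, he, Subtype.ext ?_⟩
    rw [Subgroup.coe_mul, Subgroup.coe_mul, Subgroup.coe_inv, Subgroup.coe_pow]
    show (x : SL(2, ℤ)) = s * c j ^ e * s⁻¹
    rw [hxe, hcs, conj_pow]
  · intro j j' g n n' hn hn' heq
    have heq' : (g : SL(2, ℤ)) * c j ^ n * (g : SL(2, ℤ))⁻¹ = c j' ^ n' := by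
      have h0 := congrArg (Subtype.val) heq
      rw [Subgroup.coe_mul, Subgroup.coe_mul, Subgroup.coe_inv, Subgroup.coe_pow,
        Subgroup.coe_pow] at h0
      exact h0
    have hppp : IsPPP Γ ((g : SL(2, ℤ)) * c j * (g : SL(2, ℤ))⁻¹) := (hc.1 j).conj g.2
    rw [← conj_pow] at heq'
    obtain ⟨hcc, hnn⟩ := Fermat.Agent.S41.H62.isPPP_pow_unique hppp (hc.1 j') hn' heq'
    obtain ⟨j₀, -, huniq⟩ := hc.2 (c j') (hc.1 j')
    have h1 : j' = j₀ := huniq j' ⟨1, Γ.one_mem, by simp⟩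
    have h2 : j = j₀ := huniq j ⟨(g : SL(2, ℤ)), g.2, hcc.symm⟩
    have hjj : j = j' := h2.trans h1.symm
    subst hjj
    refine ⟨rfl, hnn, ?_⟩
    obtain ⟨k, hk⟩ := (hc.1 j).centralizer hneg g.2 hcc
    rcases hk with hk | hk
    · refine ⟨1, Or.inl rfl, k, Subtype.ext ?_⟩
      rw [one_mul, Subgroup.coe_zpow]
      exact hk
    · refine ⟨⟨-1, hneg⟩, Or.inr rfl, k, Subtype.ext ?_⟩
      rw [Subgroup.coe_mul, Subgroup.coe_zpow]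
      show (g : SL(2, ℤ)) = -1 * c j ^ k
      rw [neg_mul, one_mul]
      exact hk

/-- **INTRINSIC characterisation of `pairZ`, cusp form**: for ANY primitive `κ` of `φ ∪ ψ` and
ANY cusp system `c` of `Γ`, `pairZ Γ φ ψ = - ∑ j, κ (c j)`. -/
theorem pairZ_eq_pairOf [Fintype (Cos Γ)] (hneg : (-1 : SL(2, ℤ)) ∈ Γ)
    {φ ψ : Additive Γ →+ ℤ} (hφ : IsParabolicHom Γ φ) (hψ : IsParabolicHom Γ ψ) {κ : Γ → ℤ}
    (hκ : IsKappa (fun g => φ (Additive.ofMul g)) (fun g => ψ (Additive.ofMul g)) κ)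
    {J : Type*} [Fintype J] {c : J → SL(2, ℤ)} (hc : IsCuspSystem Γ c) :
    pairZ Γ φ ψ = pairOf κ (fun j => (⟨c j, (hc.1 j).mem⟩ : Γ)) := by
  classical
  obtain ⟨c₁, h₁, hT, e₁⟩ := Fermat.Agent.S41.H33.exists_Tnorm ψ hψ
  obtain ⟨c₂, h₂, Q, hU, hQ, e₂⟩ := Fermat.Agent.S41.H33.exists_Upot φ
    (Fermat.Agent.S41.H33.map_eq_zero_of_isOfFinOrder φ)
  have hψ' : IsParabolicHom Γ (homOfCoc c₁ h₁) := by rw [e₁]; exact hψ
  have hφ' : IsParabolicHom Γ (homOfCoc c₂ h₂) := by rw [e₂]; exact hφ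
  obtain ⟨κ₀, ζT, hκ₀, hsum, heval⟩ :=
    Fermat.Agent.S41.H33.exists_kappa0 hneg h₁ h₂ hT hψ' hU Q hQ hφ'
  rw [e₁, e₂] at hκ₀
  obtain ⟨J₀, hJ₀, h, w, H⟩ := Fermat.Agent.S41.H62.exists_isOrbitSection Γ
  have hcs₀ := H.isCuspSystem hneg
  have e1 : ∑ j, κ₀ ⟨(h j)⁻¹ * T ^ w j * h j, H.mem j⟩ = ∑ x, ζT x := H.sum_kappa_eq κ₀ ζT heval
  have e2 : pairZ Γ ψ φ = ∑ x, c₁ S x * Q x :=
    Fermat.Agent.S41.H33.pairZ_eq_dot hneg hψ hφ ⟨c₁, h₁, hT, e₁, rfl⟩ ⟨c₂, h₂, hU, hQ, e₂⟩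
  have hf : IsAddFn (fun g : Γ => φ (Additive.ofMul g)) := IsAddFn.of_addMonoidHom φ
  have hf' : IsAddFn (fun g : Γ => ψ (Additive.ofMul g)) := IsAddFn.of_addMonoidHom ψ
  have hκ₀' : IsKappa (fun g => φ (Additive.ofMul g)) (fun g => ψ (Additive.ofMul g)) κ₀ := hκ₀
  have hχ : IsAddFn (fun g => κ g - κ₀ g) := hκ.sub_isAddFn hκ₀'
  have e3 := hcs₀.sum_hom_eq_zero hneg hχ.toAddMonoidHom
  have e4 : ∑ j, κ ⟨(h j)⁻¹ * T ^ w j * h j, H.mem j⟩ =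
      ∑ j, κ₀ ⟨(h j)⁻¹ * T ^ w j * h j, H.mem j⟩ := by
    have e5 : ∑ j, (κ ⟨(h j)⁻¹ * T ^ w j * h j, H.mem j⟩ -
        κ₀ ⟨(h j)⁻¹ * T ^ w j * h j, H.mem j⟩) = 0 := e3
    rw [Finset.sum_sub_distrib, sub_eq_zero] at e5
    exact e5
  have hconj : ∀ g s : Γ, IsPPP Γ (g : SL(2, ℤ)) → κ (s * g * s⁻¹) = κ g := by
    intro g s hg
    exact hκ.conj hf hf' s (apply_eq_zero_of_isPosPar hφ hg.isPosPar)
      (apply_eq_zero_of_isPosPar hψ hg.isPosPar)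
  have e6 := hcs₀.sum_eq_sum hc κ hconj
  have e7 : pairZ Γ ψ φ = - pairZ Γ φ ψ := Fermat.Agent.S41.H33.pairZ_skew hneg hφ hψ
  have e8 : ∑ j, κ ⟨c j, (hc.1 j).mem⟩ = - pairZ Γ φ ψ := by
    rw [← e7, e2, ← hsum, ← e1, ← e4]
    exact e6.symm
  rw [pairOf, e8, neg_neg]

end Fermat.Agent.S41.H99
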