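import Mathlib
import Fermat.Agent.S41.H99.CuspBasis

/-!
# S41 (PAIR): the adjunction (ADJ) for `pairZ`, generic form (kappa route)

`pairZ_adj` : let `Γ, Γ' ≤ SL(2, ℤ)` be of finite index and contain `-1`, let `c : Γ' →* Γ` be
injective and preserve positive parabolicity in both directions, and let `t : ι → Γ` be a
complete system of representatives of `c(Γ') \ Γ` with cocycle system `(perm, coc)`
(`c (coc g j) = t j * g * (t (perm g j))⁻¹`).  For parabolic `x : Γ → ℤ`, `u : Γ' → ℤ`, with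
`αx = x ∘ c` and `βu g = ∑ j, u (coc g j)` (both parabolic):

  `pairZ Γ' αx u = pairZ Γ x βu`.

Both degeneracy pairs of level raising are of this form: `c` = inclusion, `t` = a right
transversal (`alpha1`, `beta1`), and `c` = conjugation by `diag(q, 1)`, `t j = diag(q,1) * famCor2 j / q`
(`alpha2`, `beta2`).
-/

set_option autoImplicit false

open scoped MatrixGroups
open ModularGroup ModularCurve.Period
open Fermat.Agent.S16.H97
open Fermat.Agent.S41.H62 (IsPosPar IsPPP IsCuspSystem)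
open Fermat.Agent.S41.H33 (pairZ)

namespace Fermat.Agent.S41.H99

/-- **(ADJ), generic form.** -/
theorem pairZ_adj {Γ Γ' : Subgroup SL(2, ℤ)} [Fintype (Cos Γ)] [Fintype (Cos Γ')]
    (hneg : (-1 : SL(2, ℤ)) ∈ Γ) (hneg' : (-1 : SL(2, ℤ)) ∈ Γ')
    {ι : Type*} [Fintype ι] (c : Γ' →* Γ) (hc : Function.Injective c) (t : ι → Γ)
    {perm : Γ → ι → ι} {coc : Γ → ι → Γ'} (hs : IsCocSys perm coc)
    (hspec : ∀ g j, c (coc g j) = t j * g * (t (perm g j))⁻¹)
    (hcomp : ∀ g : Γ, ∃ j h, g = c h * t j)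
    (hdisj : ∀ j j' h, c h * t j = t j' → j = j')
    (hpos : ∀ h : Γ', IsPosPar ((c h : Γ) : SL(2, ℤ)) ↔ IsPosPar (h : SL(2, ℤ)))
    (hnegc : ∃ h : Γ', ((c h : Γ) : SL(2, ℤ)) = -1)
    {x βu : Additive Γ →+ ℤ} {u αx : Additive Γ' →+ ℤ}
    (hx : IsParabolicHom Γ x) (hu : IsParabolicHom Γ' u)
    (hαx : IsParabolicHom Γ' αx) (hβu : IsParabolicHom Γ βu)
    (hα : ∀ h : Γ', αx (Additive.ofMul h) = x (Additive.ofMul (c h)))
    (hβ : ∀ g : Γ, βu (Additive.ofMul g) = ∑ j, u (Additive.ofMul (coc g j))) :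
    pairZ Γ' αx u = pairZ Γ x βu := by
  classical
  obtain ⟨J, hJ, h, w, H⟩ := Fermat.Agent.S41.H62.exists_isOrbitSection Γ
  obtain ⟨J', hJ', h', w', H'⟩ := Fermat.Agent.S41.H62.exists_isOrbitSection Γ'
  have hcs := H.isCuspSystem hneg
  have hcs' := H'.isCuspSystem hneg'
  have hb := isParBasis_of_isCuspSystem hneg hcs
  have hb' := isParBasis_of_isCuspSystem hneg' hcs'
  have hset : posPar Γ' = c ⁻¹' posPar Γ := Set.ext fun h => (hpos h).symm
  rw [hset] at hb'
  obtain ⟨κ', hκ'⟩ := Fermat.Agent.S41.H33.exists_kappa hneg' hu hαx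
  have hκ'1 : IsKappa (fun h : Γ' => αx (Additive.ofMul h)) (fun h => u (Additive.ofMul h)) κ' :=
    hκ'
  have hκ'2 : IsKappa (fun h : Γ' => x (Additive.ofMul (c h))) (fun h => u (Additive.ofMul h))
      κ' := by
    have e0 : (fun h : Γ' => αx (Additive.ofMul h)) = fun h => x (Additive.ofMul (c h)) :=
      funext hα
    rw [← e0]
    exact hκ'1
  have hxf : IsAddFn (fun g : Γ => x (Additive.ofMul g)) := IsAddFn.of_addMonoidHom x
  have huf : IsAddFn (fun h : Γ' => u (Additive.ofMul h)) := IsAddFn.of_addMonoidHom u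
  have e1 := pairZ_eq_pairOf hneg' hαx hu hκ'1 hcs'
  have hcompat : ∀ g j, x (Additive.ofMul (c (coc g j))) =
      x (Additive.ofMul g) + x (Additive.ofMul (t j)) - x (Additive.ofMul (t (perm g j))) := by
    intro g j
    rw [hspec, ofMul_mul, ofMul_mul, ofMul_inv, map_add, map_add, map_neg]
    ring
  have hK := hs.isKappa_trKappaL (f := fun g : Γ => x (Additive.ofMul g))
    (τ := fun j => x (Additive.ofMul (t j))) hκ'2 huf hcompat
  have htr : trFn coc (fun h : Γ' => u (Additive.ofMul h)) = fun g => βu (Additive.ofMul g) :=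
    funext fun g => (hβ g).symm
  rw [htr] at hK
  have e2 := pairZ_eq_pairOf hneg hx hβu hK hcs
  have hZr : ∀ z ∈ cen Γ, ∃ h, c h = z := by
    intro z hz
    rcases hz with hz | hz
    · exact ⟨1, by rw [map_one]; exact Subtype.ext hz.symm⟩
    · obtain ⟨h0, hh0⟩ := hnegc
      exact ⟨h0, Subtype.ext (hh0.trans hz.symm)⟩
  have e3 := pairOf_trKappaL_eq_of_isParBasis (t := t) (x := fun g : Γ => x (Additive.ofMul g))
    hc hs hspec hcomp hdisj (isParSet_posPar Γ) cen_central hZr hb hb' hxf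
    (fun g hg => apply_eq_zero_of_isPosPar hx hg) huf
    (fun h hh => apply_eq_zero_of_isPosPar hu ((hpos h).mp hh)) hκ'2
  rw [e1, e2]
  exact e3.symm

end Fermat.Agent.S41.H99
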