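import Mathlib
import Fermat.Agent.S41.H41.TransferData
import Fermat.Agent.S41.H26.ParabolicU2
import Fermat.Agent.S41.H99.Adj

/-!
# S41 (PAIR): the adjunctions (ADJ), `i = 1, 2`, for `pairZ` and the degeneracy maps

For a prime `r ∤ N`, `x ∈ L(N)`, `u ∈ L(N r)` (`L(M) = parabolicHoms ℤ (Gamma0 M) ℤ`):

* `pairZ_alpha1_beta1` : `pairZ Γ₀(N r) (alpha1 x) u = pairZ Γ₀(N) x (beta1 u)`;
* `pairZ_alpha2_beta2` : `pairZ Γ₀(N r) (alpha2 x) u = pairZ Γ₀(N) x (beta2 u)`.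

These are the hypotheses `hadj1`, `hadj2` of `S41.H14.pairStatement_of` for `E M = pairZ Γ₀(M)`
(any `Fintype` instances on the coset spaces).  Proof: `pairZ_adj` (kappa route) with the
transfer data of `S41/H41/TransferData.lean`.
-/

set_option autoImplicit false

open CongruenceSubgroup ModularCurve ModularCurve.Period
open scoped MatrixGroups
open Fermat.Agent.S16.H97 (Cos)
open Fermat.Agent.S16.H75 (mat)
open Fermat.Agent.S41.H41
open Fermat.Agent.S41.H33 (pairZ)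

namespace Fermat.Agent.S41.H99

theorem neg_one_mem_Gamma0_aux (M : ℕ) : (-1 : SL(2, ℤ)) ∈ Gamma0 M := by
  rw [Gamma0_mem]
  simp

/-- The cocycle system of a correspondence system. -/
theorem isCocSys_of_isCorrSys {Γ₁ Γ₂ : Subgroup SL(2, ℤ)} {ι : Type*}
    {α : ι → Matrix (Fin 2) (Fin 2) ℤ} (h : IsCorrSys Γ₁ Γ₂ α) : IsCocSys h.perm h.coc :=
  ⟨h.perm_one, h.perm_mul, h.coc_mul⟩

/-- **(ADJ), `i = 1`.** -/
theorem pairZ_alpha1_beta1 {N r : ℕ} (hr : r.Prime) (hrN : ¬ r ∣ N)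
    [Fintype (Cos (Gamma0 N))] [Fintype (Cos (Gamma0 (N * r)))]
    {x : Additive (Gamma0 N) →+ ℤ} {u : Additive (Gamma0 (N * r)) →+ ℤ}
    (hx : x ∈ parabolicHoms ℤ (Gamma0 N) ℤ) (hu : u ∈ parabolicHoms ℤ (Gamma0 (N * r)) ℤ) :
    pairZ (Gamma0 (N * r)) (alpha1 N r ℤ x) u = pairZ (Gamma0 N) x (beta1 N r ℤ u) := by
  refine pairZ_adj (neg_one_mem_Gamma0_aux N) (neg_one_mem_Gamma0_aux (N * r))
    (inclGamma N r) (inclGamma_injective N r) (t1 hr hrN)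
    (isCocSys_of_isCorrSys (isCorrSys_cor1 hr hrN)) (inclGamma_coc1 hr hrN) ?_ ?_ ?_ ?_
    hx hu (Fermat.Agent.S41.H26.alpha1_mem_parabolicHoms hx)
    (Fermat.Agent.S41.H26.beta1_mem_parabolicHoms hr hrN hu) (alpha1_apply N r x)
    (beta1_apply hr hrN u)
  · intro g
    obtain ⟨h, j, e⟩ := exists_eq_incl_mul_t1 hr hrN g
    exact ⟨j, h, e⟩
  · intro j j' h e
    exact t1_unique hr hrN h j j' e
  · intro h
    exact Iff.rfl
  · exact ⟨⟨-1, neg_one_mem_Gamma0_aux (N * r)⟩, rfl⟩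

/-- **(ADJ), `i = 2`.** -/
theorem pairZ_alpha2_beta2 {N r : ℕ} (hr : r.Prime) (hrN : ¬ r ∣ N)
    [Fintype (Cos (Gamma0 N))] [Fintype (Cos (Gamma0 (N * r)))]
    {x : Additive (Gamma0 N) →+ ℤ} {u : Additive (Gamma0 (N * r)) →+ ℤ}
    (hx : x ∈ parabolicHoms ℤ (Gamma0 N) ℤ) (hu : u ∈ parabolicHoms ℤ (Gamma0 (N * r)) ℤ) :
    pairZ (Gamma0 (N * r)) (alpha2 N r ℤ x) u = pairZ (Gamma0 N) x (beta2 N r ℤ u) := by
  have hD : 0 < (famDelta r ()).det := by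
    have : (famDelta r ()).det = (r : ℤ) := by simp [famDelta, Matrix.det_fin_two_of]
    rw [this]
    exact_mod_cast hr.pos
  refine pairZ_adj (neg_one_mem_Gamma0_aux N) (neg_one_mem_Gamma0_aux (N * r))
    (conjDelta N r hr.ne_zero) (conjDelta_injective hr.ne_zero) (t2 hr hrN)
    (isCocSys_of_isCorrSys (isCorrSys_cor2 hr hrN)) (conjDelta_coc2 hr hrN) ?_ ?_ ?_ ?_
    hx hu (Fermat.Agent.S41.H26.alpha2_mem_parabolicHoms hr hx)
    (Fermat.Agent.S41.H26.beta2_mem_parabolicHoms hr hrN hu) (alpha2_eq_conjDelta hr.ne_zero x)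
    (beta2_apply hr hrN u)
  · intro g
    obtain ⟨h, j, e⟩ := exists_eq_conj_mul_t2 hr hrN g
    exact ⟨j, h, e⟩
  · intro j j' h e
    exact t2_unique hr hrN h j j' e
  · intro h
    exact (Fermat.Agent.S41.H62.isPosPar_iff_of_intertwine hD
      (conjDelta_spec (N := N) hr.ne_zero h)).symm
  · obtain ⟨h, hh⟩ := mem_range_conjDelta_of_coe_eq_neg_one (N := N) hr.ne_zero
      ⟨-1, neg_one_mem_Gamma0_aux N⟩ rfl
    exact ⟨h, by rw [hh]⟩

end Fermat.Agent.S41.H99
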